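import Mathlib
import Fermat.Agent.MU.Lib.RR.MultGeneral

section MergeWrap_Lib_FF_GoodEll_Choice -- from Lib/FF/GoodEll/Choice.lean

set_option autoImplicit false

/-!
# FF / S19, route R-G, seat E: general points, uniformly in a choice (helper20)

`F / K` a function field (`IsRRField`, any characteristic).  `S : ℕ → Finset (Place K F)` is a
sequence of pairwise disjoint finite sets of places (in the application: the places over the roots
of the `m`-th monic irreducible polynomial over `𝔽_ℓ`, i.e. everything the Galois conjugates of a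
place over a root of a lift can reduce to).

* `finite_basePoints` : a nonzero `L(Z)` has finitely many base points;
* `exists_index_forall` : one index `m`, off a finite set, such that NO place of `S m` is a base
  point of any nonzero `L(Z)`, `Z` in a finite family;
* `exists_indices_forall_choice` : `n` distinct indices `m₁, …, mₙ` such that for EVERY choice
  `Q i ∈ S (m i)` and every `Z` of the family `ℓ(Z - ∑ Q i) = ℓ(Z) - n` (truncated).
-/

noncomputable section

open AlgebraicCurve

namespace Fermat.Agent.FFGoodEll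

open Fermat.Agent.RR Fermat.Agent.RRMult

variable {K F : Type*} [Field K] [Field F] [Algebra K F]

/-- the divisor `∑ i, Q i` of a tuple of places. -/
def sumTuple {n : ℕ} (Q : Fin n → Place K F) : Divisor K F := ∑ i, Finsupp.single (Q i) (1 : ℤ)

theorem sumTuple_zero (Q : Fin 0 → Place K F) : sumTuple Q = 0 := by
  simp [sumTuple]

theorem sumTuple_succ {n : ℕ} (Q : Fin (n + 1) → Place K F) :
    sumTuple Q = Finsupp.single (Q 0) 1 + sumTuple (fun i : Fin n => Q i.succ) := by
  simp [sumTuple, Fin.sum_univ_succ]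

theorem sumTuple_nonneg {n : ℕ} (Q : Fin n → Place K F) : 0 ≤ sumTuple Q := by
  unfold sumTuple
  refine Finset.sum_nonneg fun i _ => ?_
  intro v
  classical
  rw [Finsupp.coe_zero, Pi.zero_apply, Finsupp.single_apply]
  split_ifs <;> norm_num

theorem degree_sumTuple (h : IsRRField K F) {n : ℕ} (Q : Fin n → Place K F) :
    Divisor.degree (sumTuple Q) = n := by
  unfold sumTuple
  rw [map_sum]
  simp [degree_single_one h]

/-- if `Q` is not a zero of `s ∈ L(Z)` relative to `Z`, then `ℓ(Z - Q) = ℓ(Z) - 1`. -/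
theorem ell_sub_single_of_ord_eq (h : IsRRField K F) (Z : Divisor K F) (Q : Place K F)
    {s : F} (hs0 : s ≠ 0) (hs : s ∈ riemannRochSpace Z) (hord : Q.ord s = -Z Q) :
    ell (Z - Finsupp.single Q 1) = ell Z - 1 := by
  have e : Z - Finsupp.single Q 1 + Finsupp.single Q 1 = Z := sub_add_cancel _ _
  have hnot : s ∉ riemannRochSpace (Z - Finsupp.single Q 1) := by
    intro hmem
    have := (mem_riemannRochSpace_iff.mp hmem Q).resolve_left hs0
    rw [Finsupp.sub_apply, Finsupp.single_eq_same, hord] at this
    omega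
  have h1 := (ell_add_single_eq_iff h (Z - Finsupp.single Q 1) Q).mpr
    ⟨s, by rw [e]; exact hs, hnot⟩
  rw [e] at h1
  omega

/-- a nonzero `L(Z)` has finitely many base points. -/
theorem finite_basePoints (h : IsRRField K F) (Z : Divisor K F) (hZ : ell Z ≠ 0) :
    {Q : Place K F | ell (Z - Finsupp.single Q 1) ≠ ell Z - 1}.Finite := by
  have hne : riemannRochSpace Z ≠ ⊥ := by
    intro hbot
    apply hZ
    unfold ell
    rw [hbot, finrank_bot]
  obtain ⟨s, hs, hs0⟩ := Submodule.exists_mem_ne_zero_of_ne_bot hne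
  refine (finite_relZeros h Z hs0).subset fun Q hQ => ?_
  intro hord
  exact hQ (ell_sub_single_of_ord_eq h Z Q hs0 hs hord)

/-- subtracting a place never increases `ℓ`, and decreases it by at most one. -/
theorem ell_sub_single_le (h : IsRRField K F) (Z : Divisor K F) (Q : Place K F) :
    ell (Z - Finsupp.single Q 1) ≤ ell Z :=
  ell_mono h (by
    have := le_add_single (Z - Finsupp.single Q 1) Q
    rwa [sub_add_cancel] at this)

theorem ell_sub_single_of_ell_eq_zero (h : IsRRField K F) (Z : Divisor K F) (Q : Place K F)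
    (hZ : ell Z = 0) : ell (Z - Finsupp.single Q 1) = ell Z - 1 := by
  have := ell_sub_single_le h Z Q
  omega

/-- **one step.**  For a finite family `𝒵` and pairwise disjoint finite sets `S m` there is an
index `m`, off a given finite set `T`, such that no place of `S m` is a base point of any
nonzero `L(Z)`, `Z ∈ 𝒵`. -/
theorem exists_index_forall (h : IsRRField K F) (S : ℕ → Finset (Place K F))
    (hS : ∀ m m', m ≠ m' → Disjoint (S m) (S m')) (𝒵 : Finset (Divisor K F)) (T : Finset ℕ) :
    ∃ m, m ∉ T ∧ ∀ Q ∈ S m, ∀ Z ∈ 𝒵, ell (Z - Finsupp.single Q 1) = ell Z - 1 := by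
  classical
  -- the bad places
  have hfin : (⋃ Z ∈ {Z ∈ 𝒵 | ell Z ≠ 0},
      {Q : Place K F | ell (Z - Finsupp.single Q 1) ≠ ell Z - 1}).Finite := by
    refine Set.Finite.biUnion (Finset.finite_toSet _) fun Z hZ => ?_
    exact finite_basePoints h Z (Finset.mem_filter.mp (Finset.mem_coe.mp hZ)).2
  set B : Finset (Place K F) := hfin.toFinset with hB
  -- the bad indices
  have hbad : {m : ℕ | ∃ Q ∈ S m, Q ∈ B}.Finite := by
    have hsub : {m : ℕ | ∃ Q ∈ S m, Q ∈ B} ⊆ ⋃ Q ∈ B, {m : ℕ | Q ∈ S m} := by
      rintro m ⟨Q, hQm, hQB⟩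
      exact Set.mem_biUnion hQB hQm
    refine (Set.Finite.biUnion B.finite_toSet fun Q _ => ?_).subset hsub
    refine Set.Subsingleton.finite ?_
    intro m hm m' hm'
    by_contra hne
    exact Finset.disjoint_left.mp (hS m m' hne) hm hm'
  obtain ⟨m, hm⟩ := (hbad.union T.finite_toSet).infinite_compl.nonempty
  rw [Set.mem_compl_iff, Set.mem_union, not_or] at hm
  refine ⟨m, fun hmT => hm.2 (Finset.mem_coe.mpr hmT), fun Q hQ Z hZ => ?_⟩
  by_cases hZ0 : ell Z = 0
  · exact ell_sub_single_of_ell_eq_zero h Z Q hZ0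
  by_contra hne
  apply hm.1
  refine ⟨Q, hQ, ?_⟩
  rw [hB, Set.Finite.mem_toFinset, Set.mem_iUnion₂]
  exact ⟨Z, Finset.mem_coe.mpr (Finset.mem_filter.mpr ⟨hZ, hZ0⟩), hne⟩

/-- **general points, uniformly in the choice.**  For a finite family `𝒵` of divisors and
pairwise disjoint finite sets `S m` of places there are `n` distinct indices `m i`, off a given
finite set, such that for EVERY choice `Q i ∈ S (m i)` and every `Z ∈ 𝒵`:
`ℓ(Z - ∑ Q i) = ℓ(Z) - n` (truncated subtraction). -/
theorem exists_indices_forall_choice (h : IsRRField K F) (S : ℕ → Finset (Place K F))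
    (hS : ∀ m m', m ≠ m' → Disjoint (S m) (S m')) (n : ℕ) :
    ∀ (𝒵 : Finset (Divisor K F)) (T : Finset ℕ),
      ∃ m : Fin n → ℕ, Function.Injective m ∧ (∀ i, m i ∉ T) ∧
        ∀ Q : Fin n → Place K F, (∀ i, Q i ∈ S (m i)) →
          ∀ Z ∈ 𝒵, ell (Z - sumTuple Q) = ell Z - n := by
  classical
  induction n with
  | zero =>
    intro 𝒵 T
    refine ⟨fun i => i.elim0, fun i => i.elim0, fun i => i.elim0, fun Q _ Z _ => ?_⟩
    rw [sumTuple_zero, sub_zero, Nat.sub_zero]
  | succ n ih =>
    intro 𝒵 T
    obtain ⟨m₀, hm₀T, hm₀⟩ := exists_index_forall h S hS 𝒵 T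
    set 𝒵' : Finset (Divisor K F) :=
      (𝒵 ×ˢ S m₀).image fun p => p.1 - Finsupp.single p.2 1 with h𝒵'
    obtain ⟨m', hm'inj, hm'T, hm'⟩ := ih 𝒵' (insert m₀ T)
    refine ⟨Fin.cons m₀ m', ?_, ?_, ?_⟩
    · intro i j hij
      induction i using Fin.cases with
      | zero =>
        induction j using Fin.cases with
        | zero => rfl
        | succ j =>
          exfalso
          rw [Fin.cons_zero, Fin.cons_succ] at hij
          exact hm'T j (hij ▸ Finset.mem_insert_self m₀ T)
      | succ i =>
        induction j using Fin.cases with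
        | zero =>
          exfalso
          rw [Fin.cons_zero, Fin.cons_succ] at hij
          exact hm'T i (hij ▸ Finset.mem_insert_self m₀ T)
        | succ j =>
          rw [Fin.cons_succ, Fin.cons_succ] at hij
          rw [hm'inj hij]
    · intro i
      induction i using Fin.cases with
      | zero =>
        rw [Fin.cons_zero]
        exact hm₀T
      | succ i =>
        rw [Fin.cons_succ]
        exact fun hh => hm'T i (Finset.mem_insert_of_mem hh)
    · intro Q hQ Z hZ
      have hQ0 : Q 0 ∈ S m₀ := by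
        have := hQ 0
        rwa [Fin.cons_zero] at this
      have hQs : ∀ i : Fin n, Q i.succ ∈ S (m' i) := by
        intro i
        have := hQ i.succ
        rwa [Fin.cons_succ] at this
      have hmem : Z - Finsupp.single (Q 0) 1 ∈ 𝒵' := by
        rw [h𝒵', Finset.mem_image]
        exact ⟨(Z, Q 0), Finset.mem_product.mpr ⟨hZ, hQ0⟩, rfl⟩
      have h1 := hm' (fun i => Q i.succ) hQs _ hmem
      have h2 := hm₀ (Q 0) hQ0 Z hZ
      have e : Z - sumTuple Q = Z - Finsupp.single (Q 0) 1 - sumTuple (fun i : Fin n => Q i.succ) := by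
        rw [sumTuple_succ]
        abel
      rw [e, h1, h2]
      omega

end Fermat.Agent.FFGoodEll
end
end MergeWrap_Lib_FF_GoodEll_Choice

section MergeWrap_Lib_FF_GoodEll_Chart -- from Lib/FF/GoodEll/Chart.lean

set_option autoImplicit false

/-!
# FF / S19, route R-G, seat E: good divisors and the chart (helper20)

`F / K` a function field (`IsRRField`, any characteristic), genus `g`, `P` a place ("`∞`").
A divisor `Y` of degree `g` (in the application `Y = D₀(x) + E`, `x ∈ J[ℓ^k]`) is *good* if
`ℓ(Y - P) = 0` and `ℓ((2g-1) P - Y) = 0`.  Then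
* `ℓ(Y) = 1`;
* the effective divisor `D ∼ Y` does not contain `P`;
* `L(T - D) ⊕ L((2g-1) P) = L(T)` for `T = M₀ P`, `M₀ ≥ 3g - 1`: the fixed subspace
  `C = L((2g-1) P)` is a complement of `W_x = L(T - D)` (the chart of the Grassmannian).

`exists_indices_isGoodDiv` : existence of `g` indices such that `X + ∑ Q i` is good for every `X`
of a finite family of divisors of degree `0` and EVERY choice `Q i ∈ S (m i)`.
-/

noncomputable section

open AlgebraicCurve

namespace Fermat.Agent.FFGoodEll

open Fermat.Agent.RR Fermat.Agent.RRMult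

variable {K F : Type*} [Field K] [Field F] [Algebra K F]

/-- `Y` (of degree `g`) is good for the chart at the place `P`. -/
def IsGoodDiv (P : Place K F) (Y : Divisor K F) : Prop :=
  ell (Y - Finsupp.single P 1) = 0 ∧
    ell (Finsupp.single P (2 * (genusFF K F : ℤ) - 1) - Y) = 0

theorem riemannRochSpace_eq_bot_of_ell (h : IsRRField K F) {D : Divisor K F} (hD : ell D = 0) :
    riemannRochSpace D = ⊥ := by
  have := finite_riemannRochSpace h D
  exact Submodule.finrank_eq_zero.mp hD

theorem IsGoodDiv.ell_eq_one (h : IsRRField K F) {P : Place K F} {Y : Divisor K F}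
    (hY : IsGoodDiv P Y) (hdeg : Divisor.degree Y = (genusFF K F : ℤ)) : ell Y = 1 := by
  have h1 := ell_add_single_le h (Y - Finsupp.single P 1) P
  rw [sub_add_cancel, hY.1] at h1
  have h2 := riemann_roch_H1 h Y
  rw [hdeg] at h2
  have h3 : (0 : ℤ) ≤ (idx Y : ℤ) := Int.natCast_nonneg _
  omega

/-- the good property only depends on the linear equivalence class. -/
theorem IsGoodDiv.add_divOf (h : IsRRField K F) {P : Place K F} {Y : Divisor K F}
    (hY : IsGoodDiv P Y) {f : F} (hf : f ≠ 0) : IsGoodDiv P (Y + divOf h f) := by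
  constructor
  · have e : Y + divOf h f - Finsupp.single P 1 = Y - Finsupp.single P 1 + divOf h f := by abel
    rw [e, ell_add_divOf h _ hf]
    exact hY.1
  · have e : Finsupp.single P (2 * (genusFF K F : ℤ) - 1) - (Y + divOf h f)
        = Finsupp.single P (2 * (genusFF K F : ℤ) - 1) - Y + divOf h f⁻¹ := by
      rw [divOf_inv]
      abel
    rw [e, ell_add_divOf h _ (inv_ne_zero hf)]
    exact hY.2

/-- an effective good divisor does not contain `P`. -/
theorem IsGoodDiv.apply_eq_zero (h : IsRRField K F) {P : Place K F} {D : Divisor K F}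
    (hD : IsGoodDiv P D) (hD0 : 0 ≤ D) : D P = 0 := by
  by_contra hne
  have hpos : 0 < D P := lt_of_le_of_ne (hD0 P) (Ne.symm hne)
  have hge : 0 ≤ D - Finsupp.single P 1 := by
    intro v
    classical
    rw [Finsupp.coe_zero, Pi.zero_apply, Finsupp.sub_apply, Finsupp.single_apply]
    split_ifs with hv
    · subst hv
      omega
    · have := hD0 v
      simp only [Finsupp.coe_zero, Pi.zero_apply] at this
      omega
  have h1 : (1 : F) ∈ riemannRochSpace (D - Finsupp.single P 1) :=
    riemannRochSpace_mono hge (by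
      have := algebraMap_mem_riemannRochSpace_zero (K := K) (F := F) 1
      simpa using this)
  rw [riemannRochSpace_eq_bot_of_ell h hD.1] at h1
  exact one_ne_zero ((Submodule.mem_bot K).mp h1)

/-- `L(M₀ P - D) ∩ L((2g-1) P) = 0` for an effective good divisor `D`. -/
theorem IsGoodDiv.inf_eq_bot (h : IsRRField K F) {P : Place K F} {D : Divisor K F}
    (hD : IsGoodDiv P D) (hD0 : 0 ≤ D) (M₀ : ℤ) :
    riemannRochSpace (Finsupp.single P M₀ - D)
        ⊓ riemannRochSpace (Finsupp.single P (2 * (genusFF K F : ℤ) - 1)) = ⊥ := by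
  rw [eq_bot_iff]
  intro f hf
  rw [Submodule.mem_bot]
  by_contra hf0
  have hDP := hD.apply_eq_zero h hD0
  have hmem : f ∈ riemannRochSpace (Finsupp.single P (2 * (genusFF K F : ℤ) - 1) - D) := by
    rw [mem_riemannRochSpace_iff]
    intro v
    right
    have h1 := (mem_riemannRochSpace_iff.mp hf.1 v).resolve_left hf0
    have h2 := (mem_riemannRochSpace_iff.mp hf.2 v).resolve_left hf0
    classical
    rw [Finsupp.sub_apply, Finsupp.single_apply] at h1 ⊢
    rw [Finsupp.single_apply] at h2
    split_ifs at h1 h2 ⊢ with hv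
    · subst hv
      rw [hDP]
      omega
    · omega
  rw [riemannRochSpace_eq_bot_of_ell h hD.2] at hmem
  exact hf0 ((Submodule.mem_bot K).mp hmem)

/-- `ℓ((2g-1) P) = g`. -/
theorem ell_chart (h : IsRRField K F) (P : Place K F) :
    ell (Finsupp.single P (2 * (genusFF K F : ℤ) - 1)) = genusFF K F := by
  have h1 := ell_of_degree_gt h (D := Finsupp.single P (2 * (genusFF K F : ℤ) - 1))
    (by rw [degree_single_one h]; omega)
  rw [degree_single_one h] at h1
  omega

/-- **the chart**: `L(M₀ P - D) ⊔ L((2g-1) P) = L(M₀ P)` for an effective good divisor `D` of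
degree `g` and `M₀ ≥ 3g - 1`. -/
theorem IsGoodDiv.sup_eq (h : IsRRField K F) {P : Place K F} {D : Divisor K F}
    (hD : IsGoodDiv P D) (hD0 : 0 ≤ D) (hdeg : Divisor.degree D = (genusFF K F : ℤ))
    {M₀ : ℤ} (hM : 3 * (genusFF K F : ℤ) - 1 ≤ M₀) :
    riemannRochSpace (Finsupp.single P M₀ - D)
        ⊔ riemannRochSpace (Finsupp.single P (2 * (genusFF K F : ℤ) - 1))
      = riemannRochSpace (Finsupp.single P M₀) := by
  have hg : (0 : ℤ) ≤ (genusFF K F : ℤ) := Int.natCast_nonneg _
  have f1 := finite_riemannRochSpace h (Finsupp.single P M₀ - D)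
  have f2 := finite_riemannRochSpace h (Finsupp.single P (2 * (genusFF K F : ℤ) - 1))
  have f3 := finite_riemannRochSpace h (Finsupp.single P M₀)
  have hle1 : riemannRochSpace (Finsupp.single P M₀ - D) ≤ riemannRochSpace (Finsupp.single P M₀) :=
    riemannRochSpace_mono (sub_le_self _ hD0)
  have hle2 : riemannRochSpace (Finsupp.single P (2 * (genusFF K F : ℤ) - 1))
      ≤ riemannRochSpace (Finsupp.single P M₀) := by
    refine riemannRochSpace_mono ?_
    intro v
    classical
    rw [Finsupp.single_apply, Finsupp.single_apply]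
    split_ifs
    · omega
    · exact le_refl _
  refine Submodule.eq_of_le_of_finrank_le (sup_le hle1 hle2) ?_
  have hsum := Submodule.finrank_sup_add_finrank_inf_eq
    (riemannRochSpace (Finsupp.single P M₀ - D))
    (riemannRochSpace (Finsupp.single P (2 * (genusFF K F : ℤ) - 1)))
  rw [hD.inf_eq_bot h hD0 M₀, finrank_bot, add_zero] at hsum
  rw [hsum]
  have e1 := ell_of_degree_gt h (D := Finsupp.single P M₀ - D)
    (by rw [map_sub, degree_single_one h, hdeg]; omega)
  rw [map_sub, degree_single_one h, hdeg] at e1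
  have e2 := ell_chart h P
  have e3 := ell_of_degree_gt h (D := Finsupp.single P M₀)
    (by rw [degree_single_one h]; omega)
  rw [degree_single_one h] at e3
  unfold ell at e1 e2 e3
  omega

/-- the chart as `IsCompl` inside `L(M₀ P)`: every `f ∈ L(M₀ P)` is uniquely `w + c`. -/
theorem IsGoodDiv.exists_unique_add (h : IsRRField K F) {P : Place K F} {D : Divisor K F}
    (hD : IsGoodDiv P D) (hD0 : 0 ≤ D) (hdeg : Divisor.degree D = (genusFF K F : ℤ))
    {M₀ : ℤ} (hM : 3 * (genusFF K F : ℤ) - 1 ≤ M₀) {f : F}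
    (hf : f ∈ riemannRochSpace (Finsupp.single P M₀)) :
    ∃ w ∈ riemannRochSpace (Finsupp.single P M₀ - D),
      ∃ c ∈ riemannRochSpace (Finsupp.single P (2 * (genusFF K F : ℤ) - 1)), w + c = f := by
  rw [← hD.sup_eq h hD0 hdeg hM] at hf
  exact Submodule.mem_sup.mp hf

/-- **good `E`, uniformly in a choice.**  `S m` pairwise disjoint finite sets of places,
`𝒳` a finite family of divisors of degree `0`.  There are `g` distinct indices `m i` (off a
given finite set) such that `X + ∑ Q i` is good at `P` for every `X ∈ 𝒳` and EVERY choice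
`Q i ∈ S (m i)`. -/
theorem exists_indices_isGoodDiv (h : IsRRField K F) (P : Place K F)
    (S : ℕ → Finset (Place K F)) (hS : ∀ m m', m ≠ m' → Disjoint (S m) (S m'))
    (𝒳 : Finset (Divisor K F)) (h𝒳 : ∀ X ∈ 𝒳, Divisor.degree X = 0) (T : Finset ℕ) :
    ∃ m : Fin (genusFF K F) → ℕ, Function.Injective m ∧ (∀ i, m i ∉ T) ∧
      ∀ Q : Fin (genusFF K F) → Place K F, (∀ i, Q i ∈ S (m i)) →
        ∀ X ∈ 𝒳, IsGoodDiv P (X + sumTuple Q) := by
  classical
  obtain ⟨W, hW⟩ := riemann_roch h
  have hWdeg := (canonical_degree h hW).1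
  set 𝒵 : Finset (Divisor K F) :=
    (𝒳.image fun X => W - X + Finsupp.single P 1) ∪
      (𝒳.image fun X => Finsupp.single P (2 * (genusFF K F : ℤ) - 1) - X) with h𝒵
  obtain ⟨m, hminj, hmT, hm⟩ := exists_indices_forall_choice h S hS (genusFF K F) 𝒵 T
  refine ⟨m, hminj, hmT, fun Q hQ X hX => ?_⟩
  have hXdeg := h𝒳 X hX
  have hQdeg := degree_sumTuple h Q
  constructor
  · -- `ℓ(X + E - P) = ℓ(W - X + P - E) = 0`
    have hmem : W - X + Finsupp.single P 1 ∈ 𝒵 := by
      rw [h𝒵]
      exact Finset.mem_union_left _ (Finset.mem_image_of_mem _ hX)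
    have h1 := hm Q hQ _ hmem
    have h2 : (ell (W - X + Finsupp.single P 1) : ℤ) = (genusFF K F : ℤ) := by
      have := ell_of_degree_gt h (D := W - X + Finsupp.single P 1)
        (by rw [map_add, map_sub, hWdeg, hXdeg, degree_single_one h]; omega)
      rw [map_add, map_sub, hWdeg, hXdeg, degree_single_one h] at this
      omega
    have h3 : ell (W - X + Finsupp.single P 1 - sumTuple Q) = 0 := by
      rw [h1]
      omega
    have h4 := hW (X + sumTuple Q - Finsupp.single P 1)
    have e : W - (X + sumTuple Q - Finsupp.single P 1)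
        = W - X + Finsupp.single P 1 - sumTuple Q := by abel
    rw [e, h3, map_sub, map_add, hXdeg, hQdeg, degree_single_one h] at h4
    have : (ell (X + sumTuple Q - Finsupp.single P 1) : ℤ) = 0 := by
      rw [h4]
      push_cast
      ring
    exact_mod_cast this
  · have hmem : Finsupp.single P (2 * (genusFF K F : ℤ) - 1) - X ∈ 𝒵 := by
      rw [h𝒵]
      exact Finset.mem_union_right _ (Finset.mem_image_of_mem _ hX)
    have h1 := hm Q hQ _ hmem
    have h2 : (ell (Finsupp.single P (2 * (genusFF K F : ℤ) - 1) - X) : ℤ)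
        = (genusFF K F : ℤ) := by
      have := ell_of_degree_gt h (D := Finsupp.single P (2 * (genusFF K F : ℤ) - 1) - X)
        (by rw [map_sub, hXdeg, degree_single_one h]; omega)
      rw [map_sub, hXdeg, degree_single_one h] at this
      omega
    have e : Finsupp.single P (2 * (genusFF K F : ℤ) - 1) - (X + sumTuple Q)
        = Finsupp.single P (2 * (genusFF K F : ℤ) - 1) - X - sumTuple Q := by abel
    rw [e, h1]
    omega

end Fermat.Agent.FFGoodEll
end
end MergeWrap_Lib_FF_GoodEll_Chart
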