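import Mathlib
import Fermat.Agent.MU.Lib.FF.GoodEll.Chart
import Fermat.Agent.MU.Lib.Deuring.Main

section MergeWrap_Lib_FF_GoodEll_Semi -- from Lib/FF/GoodEll/Semi.lean

set_option autoImplicit false

/-!
# FF / S19, route R-G, seat E: semicontinuity (helper20)

`S : Deuring.ValSetup K F k Fk` a constant reduction with the lattice property and a reduction map
`r` of places with the push-forward property (`Deuring.exists_reduction`).  Then for EVERY divisor
`B` of `F` (no degree condition)

* `redSpace_le` : the reduction of `L(B)` lies in `L(r_* B)`;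
* `ell_le_ell_mapDomain` : `ℓ_K(B) ≤ ℓ_k(r_* B)` (semicontinuity);
* `IsGoodDiv.of_reduction` : if `r_* Y` is good at `r P` then `Y` is good at `P`
  (genus equality assumed).
-/

noncomputable section

open AlgebraicCurve

namespace Fermat.Agent.FFGoodEll

open Fermat.Agent.RR Fermat.Agent.Deuring

variable {K F k Fk : Type*} [Field K] [Field F] [Algebra K F]
  [Field k] [Field Fk] [Algebra k Fk]

/-- the push-forward property of a reduction map of places. -/
def IsPush (S : ValSetup K F k Fk) (r : Place K F → Place k Fk) : Prop :=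
  ∀ f : F, f ∈ S.Ov → f⁻¹ ∈ S.Ov → f ≠ 0 → ∀ Q : Place k Fk,
    Finsupp.mapDomain r (divOf S.hF f) Q = Q.ord (S.red f)

theorem mapDomain_nonneg (r : Place K F → Place k Fk) {D : Divisor K F} (hD : 0 ≤ D) :
    0 ≤ Finsupp.mapDomain r D := by
  classical
  intro Q
  rw [Finsupp.coe_zero, Pi.zero_apply, Finsupp.mapDomain, Finsupp.sum, Finsupp.finsetSum_apply]
  refine Finset.sum_nonneg fun v _ => ?_
  rw [Finsupp.single_apply]
  split_ifs
  · exact hD v
  · exact le_refl _

theorem mapDomain_mono (r : Place K F → Place k Fk) {D D' : Divisor K F} (hD : D ≤ D') :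
    Finsupp.mapDomain r D ≤ Finsupp.mapDomain r D' := by
  have h1 : 0 ≤ D' - D := sub_nonneg.mpr hD
  have h2 := mapDomain_nonneg r h1
  have e : Finsupp.mapDomain r (D' - D) = Finsupp.mapDomain r D' - Finsupp.mapDomain r D := by
    have := Finsupp.mapDomain_add (f := r) (v₁ := D' - D) (v₂ := D)
    rw [sub_add_cancel] at this
    rw [this, add_sub_cancel_right]
  rw [e] at h2
  exact sub_nonneg.mp h2

theorem mapDomain_sub (r : Place K F → Place k Fk) (D D' : Divisor K F) :
    Finsupp.mapDomain r (D - D') = Finsupp.mapDomain r D - Finsupp.mapDomain r D' := by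
  have := Finsupp.mapDomain_add (f := r) (v₁ := D - D') (v₂ := D')
  rw [sub_add_cancel] at this
  rw [this, add_sub_cancel_right]

theorem mapDomain_neg (r : Place K F → Place k Fk) (D : Divisor K F) :
    Finsupp.mapDomain r (-D) = -Finsupp.mapDomain r D := by
  have := mapDomain_sub r 0 D
  rwa [zero_sub, Finsupp.mapDomain_zero, zero_sub] at this

theorem mapDomain_sumTuple (r : Place K F → Place k Fk) {n : ℕ} (P : Fin n → Place K F) :
    Finsupp.mapDomain r (sumTuple P) = sumTuple (fun i => r (P i)) := by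
  unfold sumTuple
  rw [Finsupp.mapDomain_finsetSum]
  simp only [Finsupp.mapDomain_single]

/-- a unit of `Ov`: an element of `Ov` with nonzero reduction. -/
theorem inv_mem_of_red_ne_zero (S : ValSetup K F k Fk) {x : F} (hx : x ∈ S.Ov)
    (hred : S.red x ≠ 0) : x ≠ 0 ∧ x⁻¹ ∈ S.Ov := by
  have hx0 : x ≠ 0 := by
    rintro rfl
    apply hred
    unfold ValSetup.red
    rw [dif_pos hx]
    have : (⟨0, hx⟩ : S.Ov) = 0 := rfl
    rw [this, map_zero]
  refine ⟨hx0, ?_⟩
  have hne : S.ρ ⟨x, hx⟩ ≠ 0 := by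
    unfold ValSetup.red at hred
    rwa [dif_pos hx] at hred
  have hunit : IsUnit (⟨x, hx⟩ : S.Ov) := by
    by_contra hcon
    exact hne ((S.ρ_eq_zero_iff ⟨x, hx⟩).mpr hcon)
  obtain ⟨u, hu⟩ := hunit
  have h1 : ((u⁻¹ : S.Ovˣ) : S.Ov) * ⟨x, hx⟩ = 1 := by
    rw [← hu]
    exact u.inv_mul
  have h2 : (((u⁻¹ : S.Ovˣ) : S.Ov) : F) * x = 1 := by
    have := congrArg (Subtype.val) h1
    simpa using this
  have h3 : x⁻¹ = (((u⁻¹ : S.Ovˣ) : S.Ov) : F) := by
    rw [eq_comm, ← mul_eq_one_iff_eq_inv₀ hx0]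
    exact h2
  rw [h3]
  exact (((u⁻¹ : S.Ovˣ) : S.Ov)).2

/-- the reduction of `L(B)` lies in `L(r_* B)`, for every divisor `B`. -/
theorem redSpace_le (S : ValSetup K F k Fk) {r : Place K F → Place k Fk} (hr : IsPush S r)
    (B : Divisor K F) :
    redSpace S (riemannRochSpace B) ≤ riemannRochSpace (Finsupp.mapDomain r B) := by
  intro y hy
  rw [mem_redSpace_iff] at hy
  obtain ⟨x, hxB, hxO, rfl⟩ := hy
  rw [mem_riemannRochSpace_iff]
  intro Q
  by_cases hred : S.red x = 0
  · exact Or.inl hred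
  right
  obtain ⟨hx0, hxinv⟩ := inv_mem_of_red_ne_zero S hxO hred
  rw [← hr x hxO hxinv hx0 Q]
  have h1 : -B ≤ divOf S.hF x := (mem_riemannRochSpace_iff_le S.hF hx0).mp hxB
  have h2 := mapDomain_mono r h1
  rw [mapDomain_neg] at h2
  exact h2 Q

/-- **semicontinuity**: `ℓ_K(B) ≤ ℓ_k(r_* B)` for every divisor `B`. -/
theorem ell_le_ell_mapDomain (S : ValSetup K F k Fk) (hL : HasLattice S)
    {r : Place K F → Place k Fk} (hr : IsPush S r) (B : Divisor K F) :
    ell B ≤ ell (Finsupp.mapDomain r B) := by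
  have f1 := finite_riemannRochSpace S.hF B
  have f2 := finite_riemannRochSpace S.hFk (Finsupp.mapDomain r B)
  have h1 := finrank_redSpace S hL (riemannRochSpace B)
  have h2 := Submodule.finrank_mono (redSpace_le S hr B)
  unfold ell
  omega

/-- if the reduction of `Y` is good at `r P`, then `Y` is good at `P`. -/
theorem IsGoodDiv.of_reduction (S : ValSetup K F k Fk) (hL : HasLattice S)
    {r : Place K F → Place k Fk} (hr : IsPush S r) (hg : genusFF K F = genusFF k Fk)
    {P : Place K F} {Y : Divisor K F} (hY : IsGoodDiv (r P) (Finsupp.mapDomain r Y)) :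
    IsGoodDiv P Y := by
  constructor
  · have h1 := ell_le_ell_mapDomain S hL hr (Y - Finsupp.single P 1)
    rw [mapDomain_sub, Finsupp.mapDomain_single, hY.1] at h1
    omega
  · have h1 := ell_le_ell_mapDomain S hL hr (Finsupp.single P (2 * (genusFF K F : ℤ) - 1) - Y)
    have h2 := hY.2
    rw [← hg] at h2
    rw [mapDomain_sub, Finsupp.mapDomain_single, h2] at h1
    omega

end Fermat.Agent.FFGoodEll
end
end MergeWrap_Lib_FF_GoodEll_Semi
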